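import Fermat.Agent.DiagonalHypersurface.Zeta
import Fermat.Agent.FermatHasseWeil.Main

/-!
# The points of a twisted Fermat curve over a finite field

Over the extensions of a field with `n ∣ q - 1` the numbers of `a x ^ n + b y ^ n = c z ^ n` are the
Jacobi sums `J (χ, ψ)` times `χ⁻¹ (a) ψ⁻¹ (b) (χ ψ) (c)`; if `n` is prime to `q - 1` there are `q + 1`
points.  At a prime of `ℚ(ζ_l)` the numbers are products of power residue symbols and Jacobi sums.
-/

set_option autoImplicit false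
set_option linter.unusedSectionVars false
set_option linter.style.haveILetI false

noncomputable section

open NumberField
open scoped Classical LinearAlgebra.Projectivization

namespace FA.FermatTwist

open FA.FermatCount FA.DavenportHasse FA.DiagonalHypersurface

universe u

/-- The points of `a x ^ n + b y ^ n = c z ^ n` in `ℙ² (E)`. -/
def TwistPoint {E : Type u} [Field E] (a b c : E) (n : ℕ) : Type u :=
  {P : ℙ E (Fin 3 → E) // a * P.rep 0 ^ n + b * P.rep 1 ^ n = c * P.rep 2 ^ n}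

theorem card_twistPoint {E : Type u} [Field E] (a b c : E) (n : ℕ) :
    Nat.card (TwistPoint a b c n) = diagonalPoints ![a, b, -c] n := by
  refine Nat.card_congr (Equiv.subtypeEquivRight fun P => ?_)
  rw [Fin.sum_univ_three]
  simp only [Matrix.cons_val_zero, Matrix.cons_val_one, Matrix.cons_val_two, Matrix.head_cons,
    Matrix.tail_cons, neg_mul, ← sub_eq_add_neg]
  exact sub_eq_zero.symm

variable {F : Type*} [Field F] [Fintype F] {n : ℕ}

/-- The triples are the pairs. -/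
theorem sum_charTuples_three {M : Type*} [AddCommMonoid M] (G : (Fin 3 → MulChar F ℂ) → M) :
    ∑ χ ∈ charTuples F n 3, G χ = ∑ x ∈ fermatPairs F n, G ![x.1, x.2, (x.1 * x.2)⁻¹] := by
  refine Finset.sum_bij' (fun χ _ => ⟨χ 0, χ 1⟩) (fun x _ => ![x.1, x.2, (x.1 * x.2)⁻¹])
    (fun χ hχ => ?_) (fun x hx => ?_) (fun χ hχ => ?_) (fun x hx => rfl) fun χ hχ => congrArg G ?_
  · obtain ⟨h, h1⟩ := mem_charTuples.mp hχ
    rw [Fin.prod_univ_three] at h1
    exact mem_fermatPairs.mpr ⟨⟨(h 0).2, (h 1).2⟩, (h 0).1, (h 1).1, fun e => (h 2).1 (by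
      rw [show χ 0 * χ 1 = 1 from e, one_mul] at h1
      exact h1)⟩
  · obtain ⟨⟨h1, h2⟩, h3, h4, h5⟩ := mem_fermatPairs.mp hx
    refine mem_charTuples.mpr ⟨fun i => ?_, ?_⟩
    · fin_cases i
      exacts [⟨h3, h1⟩, ⟨h4, h2⟩,
        ⟨inv_ne_one.mpr h5, show (x.1 * x.2)⁻¹ ^ n = 1 by rw [inv_pow, mul_pow, h1, h2, one_mul, inv_one]⟩]
    · rw [Fin.prod_univ_three]
      exact mul_inv_cancel (x.1 * x.2)
  all_goals
    obtain ⟨h, h1⟩ := mem_charTuples.mp hχ
    rw [Fin.prod_univ_three] at h1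
    have e := inv_eq_of_mul_eq_one_right h1
    funext i
    fin_cases i <;> simp [e]

/-- The number of a triple. -/
theorem omegaValue_three (hn : Odd n) {χ ψ : MulChar F ℂ} (hχn : χ ^ n = 1) (hψn : ψ ^ n = 1)
    (h : χ * ψ ≠ 1) {η : AddChar F ℂ} (hη : η.IsPrimitive) (a b c : F) :
    omegaValue ![a, b, -c] η ![χ, ψ, (χ * ψ)⁻¹] = χ⁻¹ a * ψ⁻¹ b * (χ * ψ) c * -jacobiSum χ ψ := by
  have hq : (Fintype.card F : ℂ) ≠ 0 := Nat.cast_ne_zero.mpr Fintype.card_ne_zero
  have hm1 : (χ * ψ) (-1 : F) = 1 := by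
    have h1 : (χ * ψ) ^ n = 1 := by rw [mul_pow, hχn, hψn, one_mul]
    have h2 := congrArg (fun ξ : MulChar F ℂ => ξ (-1 : F)) h1
    beta_reduce at h2
    rwa [MulChar.pow_apply' _ hn.pos.ne', ← map_pow, hn.neg_one_pow,
      MulChar.one_apply isUnit_one.neg] at h2
  have hc : (χ * ψ) (-c) = (χ * ψ) c := by rw [neg_eq_neg_one_mul, map_mul, hm1, one_mul]
  have hg := gaussSum_mul_inv h hη
  rw [hm1, one_mul] at hg
  simp only [omegaValue, Fin.prod_univ_three, Matrix.cons_val_zero, Matrix.cons_val_one,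
    Matrix.cons_val_two, Matrix.head_cons, Matrix.tail_cons, inv_inv, hc]
  rw [div_eq_iff hq]
  linear_combination
    (χ⁻¹ a * ψ⁻¹ b * (χ * ψ) c * gaussSum (χ * ψ)⁻¹ η) * jacobiSum_mul_nontrivial h η -
      (χ⁻¹ a * ψ⁻¹ b * (χ * ψ) c * jacobiSum χ ψ) * hg

variable (E : Type*) [Field E] [Finite E] [Algebra F E]

/-- **The points over every extension.** -/
theorem card_twist_extension (hn : Odd n) (hdvd : n ∣ Fintype.card F - 1) {a b c : F}
    (ha : a ≠ 0) (hb : b ≠ 0) (hc : c ≠ 0) :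
    (Nat.card (TwistPoint (algebraMap F E a) (algebraMap F E b) (algebraMap F E c) n) : ℂ) =
      (Fintype.card F : ℂ) ^ Module.finrank F E + 1 -
        ∑ x ∈ fermatPairs F n,
          (x.1⁻¹ a * x.2⁻¹ b * (x.1 * x.2) c * -jacobiSum x.1 x.2) ^ Module.finrank F E := by
  let := Fintype.ofFinite E
  set η := AddChar.FiniteField.primitiveChar_to_Complex F
  have hη : η.IsPrimitive := AddChar.FiniteField.primitiveChar_to_Complex_isPrimitive F
  have h := diagonalPoints_extension (m := 3) (a := ![a, b, -c]) E hn.pos hdvd (by norm_num)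
    (fun i => by fin_cases i <;> simp [ha, hb, hc]) hη
  rw [show (fun i => algebraMap F E (![a, b, -c] i)) =
      ![algebraMap F E a, algebraMap F E b, -algebraMap F E c] by
      funext i; fin_cases i <;> simp, ← card_twistPoint] at h
  have hω : ∀ x ∈ fermatPairs F n, omegaValue ![a, b, -c] η ![x.1, x.2, (x.1 * x.2)⁻¹] ^
      Module.finrank F E = (x.1⁻¹ a * x.2⁻¹ b * (x.1 * x.2) c * -jacobiSum x.1 x.2) ^
        Module.finrank F E := fun x hx => by
    obtain ⟨⟨h1, h2⟩, -, -, h5⟩ := mem_fermatPairs.mp hx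
    rw [omegaValue_three hn h1 h2 h5 hη]
  rw [h, sum_charTuples_three fun χ => omegaValue ![a, b, -c] η χ ^ Module.finrank F E,
    Finset.sum_congr rfl hω,
    show (3 : ℕ) - 1 = 2 from rfl, Finset.sum_range_succ, Finset.sum_range_one]
  ring

/-- **No nontrivial characters.** -/
theorem card_twist_of_gcd {E : Type*} [Field E] [Finite E] {n : ℕ} (hn : 0 < n)
    (hg : Nat.gcd n (Nat.card E - 1) = 1) {a b c : E} (ha : a ≠ 0) (hb : b ≠ 0) (hc : c ≠ 0) :
    (Nat.card (TwistPoint a b c n) : ℂ) = (Nat.card E : ℂ) + 1 := by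
  let := Fintype.ofFinite E
  rw [Nat.card_eq_fintype_card (α := E)] at hg ⊢
  have hk : (killed E n).erase 1 = ∅ := by
    rw [← Finset.card_eq_zero, Finset.card_erase_of_mem one_mem_killed, card_killed, hg]
  have hempty : charTuples E n 3 = ∅ := Finset.eq_empty_of_forall_notMem fun χ hχ => by
    obtain ⟨h, -⟩ := mem_charTuples.mp hχ
    exact Finset.notMem_empty (χ 0) (hk ▸ Finset.mem_erase.mpr ⟨(h 0).1, mem_killed.mpr (h 0).2⟩)
  have h := card_diagonalZeros (m := 3) hn (a := ![a, b, -c])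
    (fun i => by fin_cases i <;> simp [ha, hb, hc])
    (AddChar.FiniteField.primitiveChar_to_Complex_isPrimitive E)
  rw [hempty, Finset.sum_empty, mul_zero, add_zero, diagonalZeros_eq _ hn, ← card_twistPoint,
    Nat.cast_add, Nat.cast_mul, Nat.cast_sub Fintype.card_pos, Nat.cast_one] at h
  have hne : (Fintype.card E : ℂ) * ((Fintype.card E : ℂ) - 1) ≠ 0 :=
    mul_ne_zero (Nat.cast_ne_zero.mpr Fintype.card_ne_zero)
      (sub_ne_zero.mpr (by exact_mod_cast Fintype.one_lt_card.ne'))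
  refine mul_left_cancel₀ hne ?_
  linear_combination h

/-! ### At a prime of `ℚ(ζ_l)` -/

section residue

open FA.PowerReciprocity FA.FermatHW

variable {K : Type*} [Field K] [NumberField K] {l : ℕ} [hl : Fact l.Prime]
  [IsCyclotomicExtension {l} ℚ K]

/-- `(u / P) ^ i (w / P) ^ j J_{i,j} (P)`. -/
def twistValue (l : ℕ) (u w : 𝓞 K) (i j : ℕ) (P : Ideal (𝓞 K)) : 𝓞 K :=
  symbolPrime l P u ^ i * symbolPrime l P w ^ j * jacobiPrime l i j P

theorem symbolPrime_pow {P : Ideal (𝓞 K)} [P.IsMaximal] (hlP : (l : 𝓞 K) ∉ P) (x : 𝓞 K) (k : ℕ) :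
    symbolPrime l P (x ^ k) = symbolPrime l P x ^ k := by
  induction k with
  | zero => rw [pow_zero, pow_zero, symbolPrime_one hlP]
  | succ k ih => rw [pow_succ, pow_succ, symbolPrime_mul hlP, ih]

/-- The pairs of characters are the pairs of powers of the symbol. -/
theorem sum_fermatPairs {P : Ideal (𝓞 K)} [P.IsMaximal] [Fintype (𝓞 K ⧸ P)] (hlP : (l : 𝓞 K) ∉ P)
    {χ : MulChar (𝓞 K ⧸ P) (𝓞 K)} (hχ : ∀ x, χ (Ideal.Quotient.mk P x) = symbolPrime l P x)
    (g : 𝓞 K →+* ℂ) (hg : Function.Injective g) {M : Type*} [AddCommMonoid M]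
    (G : (_ : MulChar (𝓞 K ⧸ P) ℂ) × MulChar (𝓞 K ⧸ P) ℂ → M) :
    letI := Ideal.Quotient.field P
    ∑ x ∈ fermatPairs (𝓞 K ⧸ P) l, G x =
      ∑ x ∈ pairs l, G ⟨(χ ^ x.1).ringHomComp g, (χ ^ x.2).ringHomComp g⟩ := by
  let := Ideal.Quotient.field P
  have hχl := char_pow_card hlP hχ
  have hord : orderOf χ = l := orderOf_eq_prime hχl (by
    simpa using char_pow_ne_one hlP hχ (k := 1) fun e => hl.out.ne_one (Nat.dvd_one.mp e))
  have hcomp : ∀ k, ((χ ^ k).ringHomComp g) ^ l = 1 := fun k => by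
    rw [MulChar.ringHomComp_pow, ← pow_mul, mul_comm, pow_mul, hχl, one_pow, MulChar.ringHomComp_one]
  have hinj : Set.InjOn (fun x : (_ : ℕ) × ℕ => (⟨(χ ^ x.1).ringHomComp g, (χ ^ x.2).ringHomComp g⟩ :
      (_ : MulChar (𝓞 K ⧸ P) ℂ) × MulChar (𝓞 K ⧸ P) ℂ)) (pairs l : Finset _) := by
    rintro ⟨a, b⟩ hx ⟨a', b'⟩ hy e
    rw [Finset.mem_coe, mem_pairs] at hx hy
    dsimp only at hx hy
    simp only [Sigma.mk.injEq, heq_eq_eq] at e
    have key : ∀ c d : ℕ, c < l → d < l → (χ ^ c).ringHomComp g = (χ ^ d).ringHomComp g → c = d :=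
      fun c d hc hd e => pow_injOn_Iio_orderOf (x := χ) (show c < orderOf χ by omega)
        (show d < orderOf χ by omega) (MulChar.injective_ringHomComp hg e)
    rw [key a a' (by omega) (by omega) e.1, key b b' (by omega) (by omega) e.2]
  refine Eq.trans ?_ (Finset.sum_image hinj)
  refine Finset.sum_congr (Finset.eq_of_subset_of_card_le (fun y hy => ?_) ?_).symm fun _ _ => rfl
  · obtain ⟨x, hx, rfl⟩ := Finset.mem_image.mp hy
    obtain ⟨h1, h2, h3⟩ := not_dvd_of_pairs hx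
    refine mem_fermatPairs.mpr ⟨⟨hcomp _, hcomp _⟩, (MulChar.ringHomComp_ne_one_iff hg).mpr
      (char_pow_ne_one hlP hχ h1), (MulChar.ringHomComp_ne_one_iff hg).mpr
      (char_pow_ne_one hlP hχ h2), ?_⟩
    rw [← MulChar.ringHomComp_mul, ← pow_add, MulChar.ringHomComp_ne_one_iff hg]
    exact char_pow_ne_one hlP hχ h3
  · rw [Finset.card_image_of_injOn hinj, card_pairs, card_fermatPairs (by
      rw [card_quotient]
      exact dvd_absNorm_sub_one hlP)]

/-- **The points over every extension of a residue field.** -/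
theorem twistPoints_residue (hl2 : l ≠ 2) (φ : K →+* ℂ) {P : Ideal (𝓞 K)} [P.IsMaximal]
    (hlP : (l : 𝓞 K) ∉ P) {a b c : ℤ} (ha : (a : 𝓞 K) ∉ P) (hb : (b : 𝓞 K) ∉ P) (hc : (c : 𝓞 K) ∉ P)
    (E : Type*) [Field E] [Finite E] [Algebra (𝓞 K ⧸ P) E] :
    (Nat.card (TwistPoint (a : E) b c l) : ℂ) =
      ((Ideal.absNorm P : ℕ) : ℂ) ^ Module.finrank (𝓞 K ⧸ P) E + 1 -
        ∑ x ∈ pairs l, φ (twistValue l ((c * a ^ (l - 1) : ℤ) : 𝓞 K) ((c * b ^ (l - 1) : ℤ) : 𝓞 K)
          x.1 x.2 P : K) ^ Module.finrank (𝓞 K ⧸ P) E := by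
  let := Fintype.ofFinite (𝓞 K ⧸ P)
  let := Ideal.Quotient.field P
  obtain ⟨χ, hχ⟩ := exists_symbolChar hl2 hlP
  set g := φ.comp (algebraMap (𝓞 K) K)
  have hinj : Function.Injective g := φ.injective.comp RingOfIntegers.coe_injective
  have hχl := char_pow_card hlP hχ
  have hne : ∀ {z : ℤ}, (z : 𝓞 K) ∉ P → (z : 𝓞 K ⧸ P) ≠ 0 := fun hz e => hz (by
    rwa [← Ideal.Quotient.eq_zero_iff_mem, map_intCast])
  have h := card_twist_extension E (hl.out.odd_of_ne_two hl2)
    (by rw [card_quotient]; exact dvd_absNorm_sub_one hlP) (hne ha) (hne hb) (hne hc)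
  simp only [map_intCast] at h
  rw [h, card_quotient, sum_fermatPairs hlP hχ g hinj]
  congr 1
  refine Finset.sum_congr rfl fun x hx => congrArg (· ^ _) ?_
  obtain ⟨hi, hj, -⟩ := not_dvd_of_pairs hx
  have hi0 : x.1 ≠ 0 := fun e => hi (e ▸ dvd_zero l)
  have hj0 : x.2 ≠ 0 := fun e => hj (e ▸ dvd_zero l)
  have hl1 : l - 1 ≠ 0 := Nat.sub_ne_zero_of_lt hl.out.one_lt
  have hval : ∀ (z : ℤ) {k : ℕ}, k ≠ 0 →
      (χ ^ k).ringHomComp g (z : 𝓞 K ⧸ P) = g (symbolPrime l P (z : 𝓞 K)) ^ k := fun z k hk => by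
    rw [MulChar.ringHomComp_apply, MulChar.pow_apply' _ hk, map_pow,
      ← map_intCast (Ideal.Quotient.mk P), hχ]
  have hinv : ∀ k : ℕ, ((χ ^ k).ringHomComp g)⁻¹ = (χ ^ (k * (l - 1))).ringHomComp g := fun k => by
    refine inv_eq_of_mul_eq_one_right ?_
    rw [← MulChar.ringHomComp_mul, ← pow_add, show k + k * (l - 1) = l * k by
        rw [mul_comm l, add_comm, ← Nat.mul_succ, Nat.succ_eq_add_one, Nat.sub_add_cancel hl.out.one_le],
      pow_mul, hχl, one_pow, MulChar.ringHomComp_one]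
  rw [hinv, hinv, MulChar.mul_apply, hval a (mul_ne_zero hi0 hl1), hval b (mul_ne_zero hj0 hl1),
    hval c hi0, hval c hj0, jacobiSum_ringHomComp, ← map_neg, ← jacobiPrime_eq hχ hi0 hj0]
  show _ = g (twistValue l _ _ x.1 x.2 P)
  push_cast
  rw [twistValue, symbolPrime_mul hlP, symbolPrime_mul hlP, symbolPrime_pow hlP,
    symbolPrime_pow hlP, map_mul, map_mul, map_pow, map_pow, map_mul, map_mul, map_pow, map_pow]
  ring

end residue

end FA.FermatTwist

end
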