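import Fermat.Agent.FermatTwist.Residue
import Fermat.Agent.FermatTwist.Count
import Fermat.Agent.FermatHasseWeilQ.Factor
import Fermat.Agent.FermatHasseWeilQ.Local

/-!
# The twisted Jacobi sum characters

`I ↦ φ ((u / I) ^ i (w / I) ^ j J_{i,j} (I))` is an algebraic character of the type of `J_{i,j}`.
With `u`, `w` rational integers it is moved by an automorphism as `J_{i,j}` is.
-/

set_option autoImplicit false
set_option linter.unusedSectionVars false
set_option linter.style.haveILetI false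

noncomputable section

open NumberField IsDedekindDomain Ideal UniqueFactorizationMonoid
open FA.PowerReciprocity FA.IwasawaStructure FA.GaussValuation FA.FermatHW
open FA.AlgHecke (IsAlgChar IsPure IsNormPower typeVal)
open scoped nonZeroDivisors Classical ComplexConjugate

namespace FA.FermatTwist

universe u

variable {K : Type u} [Field K] [NumberField K] {l : ℕ} [hl : Fact l.Prime]
  [IsCyclotomicExtension {l} ℚ K]

local notation "zl" => IsPrimitiveRoot.toInteger (IsCyclotomicExtension.zeta_spec l ℚ K)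

/-- The twisted character, `0` at the ideals not prime to `l`. -/
def twistChar (φ : K →+* ℂ) (l : ℕ) [Fact l.Prime] (u w : 𝓞 K) (i j : ℕ) : Ideal (𝓞 K) →* ℂ where
  toFun I := φ ((symbol l I u ^ i * symbol l I w ^ j : 𝓞 K) : K) * jacobiChar φ l i j I
  map_one' := by
    rw [map_one (jacobiChar φ l i j), Ideal.one_eq_top, symbol_top, symbol_top, one_pow, one_pow,
      one_mul, mul_one]
    exact map_one φ
  map_mul' I J := by
    have h0 : jacobiChar φ l i j (0 : Ideal (𝓞 K)) = 0 := by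
      show (if l.Coprime (absNorm (0 : Ideal (𝓞 K))) then _ else (0 : ℂ)) = 0
      rw [map_zero, if_neg]
      rw [Nat.coprime_zero_right]
      exact (Fact.out : l.Prime).ne_one
    by_cases hI : I = 0
    · subst hI
      rw [zero_mul, h0, mul_zero, zero_mul]
    by_cases hJ : J = 0
    · subst hJ
      rw [mul_zero, h0, mul_zero, mul_zero]
    rw [map_mul (jacobiChar φ l i j), symbol_mul_left hI hJ, symbol_mul_left hI hJ]
    have e : φ (((symbol l I u * symbol l J u) ^ i * (symbol l I w * symbol l J w) ^ j : 𝓞 K) : K) =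
        φ ((symbol l I u ^ i * symbol l I w ^ j : 𝓞 K) : K) *
          φ ((symbol l J u ^ i * symbol l J w ^ j : 𝓞 K) : K) := by
      rw [← map_mul φ, mul_pow, mul_pow, mul_mul_mul_comm]
      rfl
    rw [e]
    ring

theorem twistChar_apply (φ : K →+* ℂ) (u w : 𝓞 K) (i j : ℕ) (I : Ideal (𝓞 K)) :
    twistChar φ l u w i j I =
      φ ((symbol l I u ^ i * symbol l I w ^ j : 𝓞 K) : K) * jacobiChar φ l i j I := rfl

/-- The conditions on the bad element `N`: divisible by `l` and, in a power, by `u` and `w`. -/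
structure IsBad (l : ℕ) (N u w : 𝓞 K) : Prop where
  ne_zero : N ≠ 0
  dvd_l : (l : 𝓞 K) ∣ N
  dvd_u : u ∣ N ^ (l - 1)
  dvd_w : w ∣ N ^ (l - 1)
  mem : ∀ P : Ideal (𝓞 K), P.IsPrime → N ∈ P → (l : 𝓞 K) ∈ P ∨ u ∈ P ∨ w ∈ P

variable {φ : K →+* ℂ} {N u w : 𝓞 K} {i j : ℕ}

theorem IsBad.notMem (h : IsBad l N u w) {P : Ideal (𝓞 K)} (hP : P.IsPrime) (hN : N ∉ P) :
    (l : 𝓞 K) ∉ P ∧ u ∉ P ∧ w ∉ P :=
  ⟨fun e => hN (Ideal.mem_of_dvd _ h.dvd_l e),
    fun e => hN (hP.mem_of_pow_mem _ (Ideal.mem_of_dvd _ h.dvd_u e)),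
    fun e => hN (hP.mem_of_pow_mem _ (Ideal.mem_of_dvd _ h.dvd_w e))⟩

theorem twistChar_apply_prime (hl2 : l ≠ 2) {v : HeightOneSpectrum (𝓞 K)}
    (hv : (l : 𝓞 K) ∉ v.asIdeal) :
    twistChar φ l u w i j v.asIdeal = φ (twistValue l u w i j v.asIdeal : K) := by
  rw [twistChar_apply, jacobiChar_apply, if_pos (coprime_of_notMem hl2 hv),
    jacobiIdeal_prime v.prime, symbol_prime v.prime, symbol_prime v.prime, ← map_mul φ]
  rfl

theorem norm_sq_twistValue (hl2 : l ≠ 2) (hi : ¬ l ∣ i) (hj : ¬ l ∣ j) (hij : ¬ l ∣ i + j)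
    {v : HeightOneSpectrum (𝓞 K)} (hv : (l : 𝓞 K) ∉ v.asIdeal) (hu : u ∉ v.asIdeal)
    (hw : w ∉ v.asIdeal) :
    ‖φ (twistValue l u w i j v.asIdeal : K)‖ ^ 2 = ((absNorm v.asIdeal : ℕ) : ℝ) := by
  haveI := v.isMaximal
  have hroot : ∀ x, x ∉ v.asIdeal → ‖φ (symbolPrime l v.asIdeal x : K)‖ = 1 := fun x hx =>
    Complex.norm_eq_one_of_pow_eq_one (by
      rw [← map_pow, show (symbolPrime l v.asIdeal x : K) ^ l =
        ((symbolPrime l v.asIdeal x ^ l : 𝓞 K) : K) from rfl, (symbolPrime_spec hv hx).1]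
      exact map_one φ) hl.out.ne_zero
  have hJ := norm_sq_jacobiChar (φ := φ) hl2 hi hj hij (coprime_of_notMem hl2 hv)
  rw [jacobiChar_apply, if_pos (coprime_of_notMem hl2 hv), jacobiIdeal_prime v.prime] at hJ
  have e : φ (twistValue l u w i j v.asIdeal : K) = φ (symbolPrime l v.asIdeal u : K) ^ i *
      φ (symbolPrime l v.asIdeal w : K) ^ j * φ (jacobiPrime l i j v.asIdeal : K) := by
    show φ (algebraMap (𝓞 K) K (_ * _ * _)) = _
    simp only [map_mul, map_pow]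
  rw [e, norm_mul, norm_mul, norm_pow, norm_pow, hroot u hu, hroot w hw, one_pow, one_pow, one_mul,
    one_mul, hJ]

theorem twistChar_prime_ne_zero_iff (hl2 : l ≠ 2) (hi : ¬ l ∣ i) (hj : ¬ l ∣ j) (hij : ¬ l ∣ i + j)
    (h : IsBad l N u w) (v : HeightOneSpectrum (𝓞 K)) :
    twistChar φ l u w i j v.asIdeal ≠ 0 ↔ N ∉ v.asIdeal := by
  haveI := v.isMaximal
  constructor
  · intro h0 hN
    refine h0 ?_
    by_cases hlv : (l : 𝓞 K) ∈ v.asIdeal
    · rw [twistChar_apply, jacobiChar_apply, if_neg fun hc =>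
        FA.PowerReciprocity.natCast_notMem v.isPrime.ne_top hc hlv, mul_zero]
    rw [twistChar_apply_prime hl2 hlv]
    have hi0 : i ≠ 0 := fun e => hi (e ▸ dvd_zero l)
    have hj0 : j ≠ 0 := fun e => hj (e ▸ dvd_zero l)
    rcases h.mem _ v.isPrime hN with hm | hm | hm
    · exact absurd hm hlv
    · simp [twistValue, symbolPrime_eq_zero hlv hm, zero_pow hi0]
    · simp [twistValue, symbolPrime_eq_zero hlv hm, zero_pow hj0]
  · intro hN h0
    obtain ⟨hlv, hu, hw⟩ := h.notMem v.isPrime hN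
    have h1 := norm_sq_twistValue (φ := φ) hl2 hi hj hij hlv hu hw
    rw [← twistChar_apply_prime hl2 hlv, h0, norm_zero, zero_pow two_ne_zero, eq_comm,
      Nat.cast_eq_zero, absNorm_eq_zero_iff] at h1
    exact v.ne_bot h1

/-- The power of `N` that is a modulus of all these characters. -/
theorem exists_isAlgChar_twist (hl2 : l ≠ 2) :
    ∃ e : ℕ, ∀ (N u w : 𝓞 K) (i j : ℕ) (φ : K →+* ℂ), IsBad l N u w → u ≠ 0 → w ≠ 0 →
      ¬ l ∣ i → ¬ l ∣ j → ¬ l ∣ i + j →
      IsAlgChar (Ideal.span {N} ^ e) (jacobiType φ l i j) (twistChar φ l u w i j) := by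
  haveI : NeZero l := ⟨hl.out.ne_zero⟩
  obtain ⟨k, hk⟩ := exists_symbol_level (K := K) (l := l) hl2
  refine ⟨k + l, fun N u w i j φ h hu hw hi hj hij => ⟨?_, fun I hI => ?_, fun x hx => ?_⟩⟩
  · exact pow_ne_zero _ (by rw [ne_eq, Ideal.zero_eq_bot, Ideal.span_singleton_eq_bot]; exact h.ne_zero)
  · have hpow : ∀ P : Ideal (𝓞 K), P.IsPrime → (Ideal.span {N} ^ (k + l) ≤ P ↔ N ∈ P) := fun P hP => by
      rw [← Ideal.span_singleton_le_iff_mem]
      exact hP.pow_le_iff (by have := hl.out.pos; omega)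
    induction I using UniqueFactorizationMonoid.induction_on_prime with
    | h₁ => exact absurd rfl hI
    | h₂ J hJ =>
      rw [Ideal.isUnit_iff.1 hJ, top_sup_eq, ← Ideal.one_eq_top, map_one]
      simp
    | h₃ J P hJ hP ih =>
      let v : HeightOneSpectrum (𝓞 K) := ⟨P, Ideal.isPrime_of_prime hP, hP.ne_zero⟩
      have ih' : twistChar φ l u w i j J ≠ 0 ↔ J ⊔ Ideal.span {N} ^ (k + l) = ⊤ := ih hJ
      rw [map_mul, mul_ne_zero_iff, ih', show P = v.asIdeal from rfl,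
        twistChar_prime_ne_zero_iff hl2 hi hj hij h v]
      have hP' : v.asIdeal ⊔ Ideal.span {N} ^ (k + l) = ⊤ ↔ N ∉ v.asIdeal :=
        ⟨fun e hN => v.isPrime.ne_top (by
          rwa [sup_eq_left.2 ((hpow _ v.isPrime).2 hN)] at e),
        fun hN => by_contra fun hne => hN ((hpow _ v.isPrime).1
          (le_sup_right.trans (v.isMaximal.eq_of_le hne le_sup_left).ge))⟩
      rw [← hP']
      constructor
      · rintro ⟨h1, h2⟩
        exact Ideal.isCoprime_iff_sup_eq.1 ((Ideal.isCoprime_iff_sup_eq.2 h1).mul_left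
          (Ideal.isCoprime_iff_sup_eq.2 h2))
      · intro h12
        have h12' := Ideal.isCoprime_iff_sup_eq.2 h12
        exact ⟨Ideal.isCoprime_iff_sup_eq.1 h12'.of_mul_left_left,
          Ideal.isCoprime_iff_sup_eq.1 h12'.of_mul_left_right⟩
  · obtain ⟨hx0, hx1, hxpos⟩ := hx
    have hle : ∀ {z : 𝓞 K} (m : ℕ), z ∣ N ^ m → m ≤ k + l → x - 1 ∈ Ideal.span {z} :=
      fun m hz hm => by
        rw [Ideal.span_singleton_pow, Ideal.mem_span_singleton] at hx1
        exact Ideal.mem_span_singleton.2 ((hz.trans (pow_dvd_pow _ hm)).trans hx1)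
    have hlk : x - 1 ∈ Ideal.span {(l : 𝓞 K)} ^ k := by
      rw [Ideal.span_singleton_pow]
      exact hle k (pow_dvd_pow_of_dvd h.dvd_l k) (Nat.le_add_right _ _)
    have hlam : x - 1 ∈ Ideal.span {(zl - 1) ^ 2} := by
      refine hle 2 (pow_dvd_pow_of_dvd (dvd_trans ?_ h.dvd_l) 2) (by have := hl.out.two_le; omega)
      exact_mod_cast (lambda_dvd_iff (K := K)).2 (dvd_refl (l : ℤ))
    rw [twistChar_apply, hk u x hu hx0 hlk (hle _ h.dvd_u (by omega)),
      hk w x hw hx0 hlk (hle _ h.dvd_w (by omega)), one_pow, one_pow, one_mul,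
      (isAlgChar_jacobiChar hl2 hi hj hij).ray x ⟨hx0, hlam, hxpos⟩]
    simp

theorem not_isNormPower_twistChar (hl2 : l ≠ 2) (hi : ¬ l ∣ i) (hj : ¬ l ∣ j) (hij : ¬ l ∣ i + j)
    (h : IsBad l N u w) : ¬ IsNormPower (twistChar φ l u w i j) := by
  rintro ⟨e, he⟩
  obtain ⟨v, hvN⟩ : ∃ v : HeightOneSpectrum (𝓞 K), N ∉ v.asIdeal := by
    obtain ⟨p, hp1, hp⟩ := Nat.exists_infinite_primes (absNorm (Ideal.span {N}) + 1)
    haveI : Fact p.Prime := ⟨hp⟩
    obtain ⟨v, hv⟩ := exists_prime_over (K := K) p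
    refine ⟨v, fun hN => ?_⟩
    have hd : absNorm v.asIdeal ∣ absNorm (Ideal.span {N}) :=
      map_dvd absNorm (Ideal.dvd_span_singleton.2 hN)
    have hd' : absNorm v.asIdeal ∣ absNorm (Ideal.span {(p : 𝓞 K)}) :=
      map_dvd absNorm (Ideal.dvd_span_singleton.2 hv)
    rw [absNorm_span_singleton, show (p : 𝓞 K) = algebraMap ℤ (𝓞 K) p by simp,
      Algebra.norm_algebraMap, Int.natAbs_pow, Int.natAbs_natCast] at hd'
    obtain ⟨m, -, hm⟩ := (Nat.dvd_prime_pow hp).1 hd'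
    rcases m with _ | m
    · exact v.isPrime.ne_top (absNorm_eq_one_iff.1 (by rw [hm, pow_zero]))
    · have h0 : absNorm (Ideal.span {N}) ≠ 0 := by
        rw [ne_eq, absNorm_eq_zero_iff, Ideal.span_singleton_eq_bot]
        exact h.ne_zero
      have := Nat.le_of_dvd (Nat.pos_of_ne_zero h0) (((dvd_pow_self p m.succ_ne_zero).trans
        (by rw [hm])).trans hd)
      omega
  obtain ⟨hlv, hu, hw⟩ := h.notMem v.isPrime hvN
  have h1 := norm_sq_twistValue (φ := φ) hl2 hi hj hij hlv hu hw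
  rw [← twistChar_apply_prime hl2 hlv, he _ v.ne_bot
    ((twistChar_prime_ne_zero_iff hl2 hi hj hij h v).2 hvN), norm_zpow, Complex.norm_natCast,
    ← zpow_natCast _ 2, ← zpow_mul] at h1
  have hbig : (1 : ℝ) < ((absNorm v.asIdeal : ℕ) : ℝ) := by
    exact_mod_cast FA.HilbertN.one_lt_absNorm v
  have h3 := zpow_right_injective₀ (zero_lt_one.trans hbig) hbig.ne' (h1.trans (zpow_one _).symm)
  omega

/-! ### The Galois action -/

/-- **An automorphism moves the twisted values as it moves the Jacobi sums.** -/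
theorem twistValue_conjAt (U W : ℤ) {v : HeightOneSpectrum (𝓞 K)} (hlv : (l : 𝓞 K) ∉ v.asIdeal)
    {b : ℕ} (hb : ¬ l ∣ b) (σ : K ≃ₐ[ℚ] K) : haveI : NeZero l := ⟨hl.out.ne_zero⟩
    twistValue l (U : 𝓞 K) W (expo l σ) (b * expo l σ % l) v.asIdeal =
      twistValue l (U : 𝓞 K) W 1 b (conjAt v σ⁻¹).asIdeal := by
  haveI : NeZero l := ⟨hl.out.ne_zero⟩
  haveI := v.isMaximal
  have hsymb : ∀ (Z : ℤ) {k : ℕ}, ¬ l ∣ k →
      symbolPrime l (conjAt v σ⁻¹).asIdeal (Z : 𝓞 K) ^ k =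
        symbolPrime l v.asIdeal (Z : 𝓞 K) ^ (k * expo l σ) := fun Z k hk => by
    conv_lhs => rw [show (conjAt v σ⁻¹).asIdeal = v.asIdeal.map (intAut σ : 𝓞 K →+* 𝓞 K) by
        show v.asIdeal.map (intAut σ⁻¹⁻¹ : 𝓞 K →+* 𝓞 K) = _
        rw [inv_inv],
      ← map_intCast (intAut σ : 𝓞 K →+* 𝓞 K) Z]
    rw [show ((intAut σ : 𝓞 K →+* 𝓞 K) (Z : 𝓞 K)) = intAut σ (Z : 𝓞 K) from rfl,
      symbolPrime_map hlv, ← map_pow,
      intAut_pow_symbol σ _ _ (fun e : k = 0 => hk (by subst e; exact dvd_zero l))]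
  rw [twistValue, twistValue, jacobiPrime_conjAt hlv hb σ,
    hsymb U (fun e => hl.out.ne_one (Nat.dvd_one.mp e)), hsymb W hb, one_mul,
    pow_symbol_mod v.asIdeal (W : 𝓞 K) (a := b * expo l σ)
      (fun e => (hl.out.dvd_mul.mp e).elim hb (not_dvd_expo σ))]

theorem conj_twistValue (U W : ℤ) {c : K ≃ₐ[ℚ] K} (hc : c⁻¹ = c)
    (hφ : ∀ x : K, conj (φ x) = φ (c x)) {v : HeightOneSpectrum (𝓞 K)}
    (hv : (l : 𝓞 K) ∉ v.asIdeal) (i j : ℕ) :
    conj (φ (twistValue l (U : 𝓞 K) W i j v.asIdeal : K)) =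
      φ (twistValue l (U : 𝓞 K) W i j (conjAt v c).asIdeal : K) := by
  haveI := v.isMaximal
  rw [hφ, ← intAut_coe, show (conjAt v c).asIdeal = v.asIdeal.map (intAut c : 𝓞 K →+* 𝓞 K) by
    show v.asIdeal.map (intAut c⁻¹ : 𝓞 K →+* 𝓞 K) = _
    rw [hc]]
  conv_rhs => rw [twistValue, jacobiPrime_map hv, ← map_intCast (intAut c : 𝓞 K →+* 𝓞 K) U,
    ← map_intCast (intAut c : 𝓞 K →+* 𝓞 K) W]
  simp only [RingHom.coe_coe, symbolPrime_map hv, ← map_pow, ← map_mul (intAut c)]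
  rfl

end FA.FermatTwist

end
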