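import Fermat.Agent.FermatTwist.Character

/-!
# The factors of a twisted L-function

The completed L-series of the primitive character of a twist of `J_{1,b}`: with rational integers
`U`, `W` it commutes with the complex conjugation at every prime, so it is real and symmetric about
`s = 1` up to a sign.
-/

set_option autoImplicit false
set_option linter.unusedSectionVars false
set_option linter.style.haveILetI false

noncomputable section

open NumberField NumberField.InfinitePlace IsDedekindDomain Ideal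
open FA.AlgHecke (IsAlgChar IsPure IsNormPower typeVal)
open FA.PowerReciprocity FA.IwasawaStructure FA.GaussValuation FA.FermatHW
open FA.Hecke (IsRayElt)
open scoped nonZeroDivisors Classical ComplexConjugate

set_option maxHeartbeats 800000

namespace FA.FermatTwist

universe u

variable {K : Type u} [Field K] [NumberField K] {l : ℕ} [hl : Fact l.Prime]
  [IsCyclotomicExtension {l} ℚ K]

theorem gammaFactor_jacobiType (hl2 : l ≠ 2) (φ : K →+* ℂ) {a b : ℕ} (ha : ¬ l ∣ a) (hb : ¬ l ∣ b)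
    (hab : ¬ l ∣ a + b) (e : {v : InfinitePlace K // IsReal v} → ℕ) (s : ℂ) :
    FA.AlgHeckeFE.gammaFactor (jacobiType φ l a b) e 1 s = Complex.Gammaℂ s ^ ((l - 1) / 2) := by
  haveI : NeZero l := ⟨hl.out.ne_zero⟩
  haveI : IsTotallyComplex K :=
    IsCyclotomicExtension.Rat.isTotallyComplex K (lt_of_le_of_ne hl.out.two_le (Ne.symm hl2))
  have hmin0 : ∀ σ : K →+* ℂ, min (jacobiType φ l a b σ)
      (jacobiType φ l a b (ComplexEmbedding.conjugate σ)) = 0 := fun σ => by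
    have h1 := jacobiType_conj (φ := φ) ha hb hab σ
    have h2 : ∀ τ, 0 ≤ jacobiType φ l a b τ := fun τ => by
      rw [jacobiType]; exact Int.natCast_nonneg _
    have := h2 σ
    have := h2 (ComplexEmbedding.conjugate σ)
    omega
  haveI : IsEmpty {v : InfinitePlace K // IsReal v} :=
    ⟨fun v => not_isReal_iff_isComplex.2 (IsTotallyComplex.isComplex v.1) v.2⟩
  rw [FA.AlgHeckeFE.gammaFactor, Fintype.prod_empty, one_mul]
  simp only [hmin0, Int.cast_zero, sub_zero]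
  rw [Finset.prod_const, Finset.card_univ,
    show Fintype.card {v : InfinitePlace K // IsComplex v} = nrComplexPlaces K from rfl,
    IsCyclotomicExtension.Rat.nrComplexPlaces_eq_totient_div_two (n := l) K, Nat.totient_prime hl.out]

/-- The conjugate of a character composed with the conjugation of the ideals has its type. -/
theorem isAlgChar_conj_map {c : K ≃ₐ[ℚ] K} (hc : c⁻¹ = c)
    (hconj : ∀ (σ : K →+* ℂ) (x : K), conj (σ x) = σ (c x)) {𝔣 : Ideal (𝓞 K)}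
    {n : (K →+* ℂ) → ℤ} {f : Ideal (𝓞 K) →* ℂ} (h : IsAlgChar 𝔣 n f) :
    IsAlgChar (𝔣.map (intAut c : 𝓞 K →+* 𝓞 K)) n ((starRingEnd ℂ).toMonoidHom.comp
      (f.comp (Ideal.mapHom (intAut c : 𝓞 K →+* 𝓞 K)).toMonoidHom)) := by
  set e : 𝓞 K →+* 𝓞 K := (intAut c : 𝓞 K →+* 𝓞 K)
  have hinv : ∀ J : Ideal (𝓞 K), (J.map e).map e = J := fun J => by
    rw [Ideal.map_map, show e.comp e = RingHom.id (𝓞 K) from RingHom.ext fun y => by
      show intAut c (intAut c y) = y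
      nth_rewrite 1 [← hc]
      rw [intAut_mul_inv], Ideal.map_id]
  have hbot : ∀ J : Ideal (𝓞 K), J ≠ ⊥ → J.map e ≠ ⊥ := fun J hJ h' => hJ (by
    rw [← hinv J, h', Ideal.map_bot])
  refine ⟨hbot _ h.ne_bot, fun I hI => ?_, fun x hx => ?_⟩
  · show conj (f (I.map e)) ≠ 0 ↔ _
    rw [_root_.map_ne_zero (starRingEnd ℂ), h.ne_zero_iff _ (hbot I hI)]
    constructor
    · intro h1
      rw [← hinv I, ← Ideal.map_sup, h1, Ideal.map_top]
    · intro h1
      rw [← hinv 𝔣, ← Ideal.map_sup, h1, Ideal.map_top]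
  · obtain ⟨hx0, hx1, hxpos⟩ := hx
    have hx' : IsRayElt 𝔣 (intAut c x) :=
      ⟨(map_ne_zero_iff _ (intAut c).injective).2 hx0, by
        rw [show intAut c x - 1 = e (x - 1) by simp [e], ← hinv 𝔣]
        exact Ideal.mem_map_of_mem e hx1,
        fun ψ => hxpos (ψ.comp (c : K ≃ₐ[ℚ] K).toRingEquiv.toRingHom)⟩
    show conj (f ((Ideal.span {x}).map e)) = typeVal n (x : K)
    rw [Ideal.map_span, Set.image_singleton, show e x = intAut c x from rfl, h.ray _ hx', typeVal,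
      typeVal, map_prod]
    refine Finset.prod_congr rfl fun σ _ => ?_
    rw [map_zpow₀, intAut_coe, ← hconj σ, Complex.conj_conj]

/-- **The factor of the twist of `J_{1,b}`.** -/
theorem exists_twistData (φ : K →+* ℂ) (hl2 : l ≠ 2) {N U V : ℤ}
    (h : IsBad l (N : 𝓞 K) (U : 𝓞 K) V) (hU : U ≠ 0) (hV : V ≠ 0) {b : ℕ}
    (hb : b ∈ Finset.Icc 1 (l - 2)) :
    ∃ (D : ℕ) (W : ℂ) (f : Ideal (𝓞 K) →* ℂ) (Λ : ℂ → ℂ),
      0 < D ∧ (∀ q : ℕ, q.Prime → q ∣ D → (q : ℤ) ∣ N) ∧ (W = 1 ∨ W = -1) ∧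
      (∀ v : HeightOneSpectrum (𝓞 K), f v.asIdeal = 0 ∨
        ‖f v.asIdeal‖ ^ 2 = ((absNorm v.asIdeal : ℕ) : ℝ)) ∧
      (∀ v : HeightOneSpectrum (𝓞 K), (N : 𝓞 K) ∉ v.asIdeal →
        f v.asIdeal = φ (twistValue l (U : 𝓞 K) V 1 b v.asIdeal : K)) ∧
      Differentiable ℂ Λ ∧
      (∀ s : ℂ, 3 / 2 < s.re → ∃ L : ℂ, L ≠ 0 ∧
        HasProd (fun v : HeightOneSpectrum (𝓞 K) =>
          (1 - f v.asIdeal * ((absNorm v.asIdeal : ℕ) : ℂ) ^ (-s))⁻¹) L ∧
        (∀ v : HeightOneSpectrum (𝓞 K),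
          1 - f v.asIdeal * ((absNorm v.asIdeal : ℕ) : ℂ) ^ (-s) ≠ 0) ∧
        Λ s = ((|((discr K : ℤ) : ℝ)| * (D : ℝ) : ℝ) : ℂ) ^ (s / 2) *
          Complex.Gammaℂ s ^ ((l - 1) / 2) * L) ∧
      (∀ s : ℂ, 3 / 2 ≤ s.re → Λ s ≠ 0) ∧ ∀ s : ℂ, Λ s = W * Λ (2 - s) := by
  haveI : NeZero l := ⟨hl.out.ne_zero⟩
  obtain ⟨h1, h2, h3⟩ := not_dvd_of_Icc hb
  have hU' : (U : 𝓞 K) ≠ 0 := Int.cast_ne_zero.2 hU
  have hV' : (V : 𝓞 K) ≠ 0 := Int.cast_ne_zero.2 hV
  have hN0 : N ≠ 0 := fun e => h.ne_zero (by rw [e, Int.cast_zero])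
  obtain ⟨e, he⟩ := exists_isAlgChar_twist (K := K) (l := l) hl2
  have hT := he _ _ _ 1 b φ h hU' hV' h1 h2 h3
  have hTn := not_isNormPower_twistChar (φ := φ) hl2 h1 h2 h3 h
  obtain ⟨w, 𝔣, f, ε, W, Λ, hw, hdvd, h₀, hag, hmin, -, -, hΛ, hL, hfe⟩ :=
    FA.AlgHeckeFE.exists_functional_equation hT hTn
  obtain rfl : w = 1 := by rw [← hw φ, jacobiType_conj h1 h2 h3]
  have hval : ∀ v : HeightOneSpectrum (𝓞 K), (N : 𝓞 K) ∉ v.asIdeal →
      f v.asIdeal = φ (twistValue l (U : 𝓞 K) V 1 b v.asIdeal : K) := fun v hv => by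
    rw [hag _ v.ne_bot ((twistChar_prime_ne_zero_iff hl2 h1 h2 h3 h v).2 hv),
      twistChar_apply_prime hl2 (h.notMem v.isPrime hv).1]
  have hnorm : ∀ v : HeightOneSpectrum (𝓞 K), f v.asIdeal = 0 ∨
      ‖f v.asIdeal‖ ^ 2 = ((absNorm v.asIdeal : ℕ) : ℝ) := fun v => by
    refine or_iff_not_imp_left.2 fun h0 => ?_
    have hp : 0 < absNorm v.asIdeal :=
      Nat.pos_of_ne_zero (absNorm_eq_zero_iff.not.2 v.ne_bot)
    have h4 := (h₀.torus hw).norm_eq_one v.ne_bot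
      (((h₀.torus hw).ne_zero_iff _ v.ne_bot).2 ((h₀.ne_zero_iff _ v.ne_bot).1 h0))
    rw [FA.IdeleClass.normTwist_apply, norm_mul, Complex.norm_natCast_cpow_of_pos hp] at h4
    have hr : (-(((1 : ℤ) : ℂ) / 2)).re = -(1 / 2 : ℝ) := by simp
    rw [hr, Real.rpow_neg (Nat.cast_nonneg _), ← Real.sqrt_eq_rpow,
      mul_inv_eq_one₀ (Real.sqrt_pos.2 (Nat.cast_pos.2 hp)).ne'] at h4
    rw [h4, Real.sq_sqrt (Nat.cast_nonneg _)]
  have hsupp : ∀ q : ℕ, q.Prime → q ∣ absNorm 𝔣 → (q : ℤ) ∣ N := fun q hq hqd => by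
    have hd := hqd.trans (map_dvd absNorm hdvd)
    rw [map_pow, absNorm_span_singleton, show (N : 𝓞 K) = algebraMap ℤ (𝓞 K) N by simp,
      Algebra.norm_algebraMap, Int.natAbs_pow] at hd
    exact Int.natCast_dvd.2 (hq.dvd_of_dvd_pow (hq.dvd_of_dvd_pow hd))
  obtain ⟨σc, hσc, -, hconj⟩ := exists_conjAut (l := l) (K := K)
  have hmap : ∀ v : HeightOneSpectrum (𝓞 K),
      v.asIdeal.map (intAut σc : 𝓞 K →+* 𝓞 K) = (conjAt v σc).asIdeal := fun v => by
    show _ = v.asIdeal.map (intAut σc⁻¹ : 𝓞 K →+* 𝓞 K)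
    rw [hσc]
  have hNc : ∀ v : HeightOneSpectrum (𝓞 K),
      (N : 𝓞 K) ∈ (conjAt v σc).asIdeal ↔ (N : 𝓞 K) ∈ v.asIdeal := fun v => by
    rw [mem_conjAt, map_intCast]
  have hsym : ∀ v : HeightOneSpectrum (𝓞 K),
      conj (f v.asIdeal) = f (conjAt v σc).asIdeal := by
    set g := (starRingEnd ℂ).toMonoidHom.comp
      (f.comp (Ideal.mapHom (intAut σc : 𝓞 K →+* 𝓞 K)).toMonoidHom)
    have hg := isAlgChar_conj_map hσc hconj h₀
    have hfin : {v : HeightOneSpectrum (𝓞 K) | g v.asIdeal ≠ f v.asIdeal}.Finite := by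
      refine (Ideal.finite_factors (I := Ideal.span {(N : 𝓞 K)}) (by
        rw [ne_eq, Ideal.zero_eq_bot, Ideal.span_singleton_eq_bot]; exact h.ne_zero)).subset
        fun v hv => Ideal.dvd_span_singleton.2 (by_contra fun hN => hv ?_)
      show conj (f (v.asIdeal.map _)) = f v.asIdeal
      rw [hmap, hval _ ((hNc v).not.2 hN), hval _ hN,
        conj_twistValue U V hσc (hconj φ) (h.notMem (conjAt v σc).isPrime ((hNc v).not.2 hN)).1,
        conjAt_conjAt hσc]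
    have d1 : 𝔣 ∣ 𝔣.map (intAut σc : 𝓞 K →+* 𝓞 K) := hmin _ _ hg hfin
    have d2 : 𝔣.map (intAut σc : 𝓞 K →+* 𝓞 K) ∣ 𝔣 := by
      have h5 := map_dvd (Ideal.mapHom (intAut σc : 𝓞 K →+* 𝓞 K)) d1
      simp only [Ideal.mapHom_apply] at h5
      rwa [Ideal.map_map, show ((intAut σc : 𝓞 K →+* 𝓞 K)).comp (intAut σc : 𝓞 K →+* 𝓞 K) =
        RingHom.id (𝓞 K) from RingHom.ext fun y => by
          show intAut σc (intAut σc y) = y
          nth_rewrite 1 [← hσc]
          rw [intAut_mul_inv], Ideal.map_id] at h5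
    intro v
    have h6 := eq_at_prime_of_minimal h₀ hg d1 d2 hfin (conjAt v σc)
    rw [← h6]
    show _ = conj (f ((conjAt v σc).asIdeal.map _))
    rw [hmap, conjAt_conjAt hσc]
  set A : ℝ := |((discr K : ℤ) : ℝ)| * ((absNorm 𝔣 : ℕ) : ℝ)
  have hD : 0 < absNorm 𝔣 := Nat.pos_of_ne_zero (absNorm_eq_zero_iff.not.2 h₀.ne_bot)
  have hA : 0 < A := mul_pos (abs_pos.2 (Int.cast_ne_zero.2 (discr_ne_zero K))) (Nat.cast_pos.2 hD)
  set g := (l - 1) / 2
  have hne₀ : ¬ IsNormPower f := fun ⟨a, ha⟩ => hTn ⟨a, fun I hI h0 => by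
    rw [← hag I hI h0]
    exact ha I hI (by rw [hag I hI h0]; exact h0)⟩
  obtain ⟨E, hEd, hE, hE0⟩ := h₀.exists_entire hw hne₀
  have hmain : ∀ s : ℂ, 3 / 2 < s.re → ∃ L : ℂ, L ≠ 0 ∧
      HasProd (fun v : HeightOneSpectrum (𝓞 K) =>
        (1 - f v.asIdeal * ((absNorm v.asIdeal : ℕ) : ℂ) ^ (-s))⁻¹) L ∧
      (∀ v : HeightOneSpectrum (𝓞 K),
        1 - f v.asIdeal * ((absNorm v.asIdeal : ℕ) : ℂ) ^ (-s) ≠ 0) ∧
      Λ s = (A : ℂ) ^ (s / 2) * Complex.Gammaℂ s ^ g * L := fun s hs => by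
    have hs' : 1 + ((1 : ℤ) : ℝ) / 2 < s.re := by push_cast; linarith
    obtain ⟨L, hL1, hL2⟩ := hL s hs'
    obtain ⟨L', hL'1, hL'2, hne⟩ := FA.AlgHeckeFE.hasProd_algChar h₀ hw hs'
    obtain rfl := hL'1.unique hL1
    exact ⟨L', by rw [hL1.unique (hE s hs')]; exact hE0 s hs'.le, hL'2, hne,
      by rw [hL2, gammaFactor_jacobiType hl2 φ h1 h2 h3]⟩
  have hnz : ∀ s : ℂ, 3 / 2 ≤ s.re → Λ s ≠ 0 := by
    have key : (fun s => Λ s * (A : ℂ) ^ (-(s / 2)) *
        ((2 * (Real.pi : ℂ)) ^ s / 2 * (Complex.Gamma s)⁻¹) ^ g) = E := by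
      have hA' : (A : ℂ) ≠ 0 := Complex.ofReal_ne_zero.2 hA.ne'
      refine eq_of_eq_halfPlane' ((hΛ.mul
          ((differentiable_id.div_const 2).neg.const_cpow (Or.inl hA'))).mul
        (((((differentiable_id).const_cpow (Or.inl (by simp [Real.pi_ne_zero]))).div_const 2).mul
          Complex.differentiable_one_div_Gamma).pow _)) hEd fun s hs => ?_
      have hs' : 1 + ((1 : ℤ) : ℝ) / 2 < s.re := by push_cast; linarith
      obtain ⟨L, -, hLp, -, hLe⟩ := hmain s hs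
      obtain ⟨L', hL1, hL2, -⟩ := FA.AlgHeckeFE.hasProd_algChar h₀ hw hs'
      rw [hLe, ← (hLp.unique hL2).trans (hL1.unique (hE s hs')), Complex.Gammaℂ_def]
      simp only [Complex.cpow_neg]
      have hg : Complex.Gamma s ≠ 0 := Complex.Gamma_ne_zero_of_re_pos (by linarith)
      have hp : (2 * (Real.pi : ℂ)) ^ s ≠ 0 :=
        Complex.cpow_ne_zero_iff.2 (Or.inl (by simp [Real.pi_ne_zero]))
      have hAs : (A : ℂ) ^ (s / 2) ≠ 0 := Complex.cpow_ne_zero_iff.2 (Or.inl hA')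
      have hu : (2 * ((2 * (Real.pi : ℂ)) ^ s)⁻¹ * Complex.Gamma s) ^ g *
          ((2 * (Real.pi : ℂ)) ^ s / 2 * (Complex.Gamma s)⁻¹) ^ g = 1 := by
        rw [← mul_pow]
        field_simp
        simp
      linear_combination (L * ((A : ℂ) ^ (s / 2) * ((A : ℂ) ^ (s / 2))⁻¹)) * hu +
        L * mul_inv_cancel₀ hAs
    intro s hs e
    refine hE0 s (by push_cast; linarith) ?_
    rw [← congrFun key s]
    rw [e, zero_mul, zero_mul]
  have hreal : (fun s => conj (Λ (conj s))) = Λ := by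
    refine eq_of_eq_halfPlane' (fun s => by
      have h1 := (hΛ (conj s)).conj_conj
      rwa [Complex.conj_conj] at h1) hΛ fun s hs => ?_
    have hs' : 3 / 2 < (conj s).re := by rwa [Complex.conj_re]
    obtain ⟨L, -, hLp, -, hLe⟩ := hmain _ hs'
    obtain ⟨L', -, hLp', -, hLe'⟩ := hmain s hs
    have hcp := hLp.map (starRingEnd ℂ) Complex.continuous_conj
    have hinv : Function.Involutive (fun v : HeightOneSpectrum (𝓞 K) => conjAt v σc) :=
      conjAt_conjAt hσc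
    have hperm := (hinv.toPerm _).hasProd_iff.2 hLp'
    have e' : (⇑(starRingEnd ℂ) ∘ fun v : HeightOneSpectrum (𝓞 K) =>
        (1 - f v.asIdeal * ((absNorm v.asIdeal : ℕ) : ℂ) ^ (-conj s))⁻¹) =
        (fun v : HeightOneSpectrum (𝓞 K) =>
          (1 - f v.asIdeal * ((absNorm v.asIdeal : ℕ) : ℂ) ^ (-s))⁻¹) ∘ hinv.toPerm _ :=
      funext fun v => by
        have hn : absNorm (conjAt v σc).asIdeal = absNorm v.asIdeal :=
          FA.Ext.absNorm_conjPrime _ _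
        simp only [Function.comp_apply, Function.Involutive.coe_toPerm, map_inv₀, map_sub, map_one,
          map_mul, hsym, FA.AlgHeckeFE.conj_natCast_cpow, map_neg, Complex.conj_conj, hn]
    rw [e'] at hcp
    show conj (Λ (conj s)) = Λ s
    rw [hLe, hLe', map_mul, map_mul, map_pow, FA.AlgHeckeFE.conj_ofReal_cpow hA,
      FA.AlgHeckeFE.conj_Gammaℂ, map_div₀, map_ofNat, Complex.conj_conj, hcp.unique hperm]
  have hfe' : ∀ s, Λ s = W * Λ (2 - s) := fun s => by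
    have h1' : (1 : ℂ) + ((1 : ℤ) : ℂ) - conj s = 2 - conj s := by push_cast; ring
    conv_rhs => rw [← hreal]
    rw [hfe s, h1']
    simp only [map_sub, map_ofNat]
  have hWsq : W = 1 ∨ W = -1 := by
    refine mul_self_eq_one_iff.1 (mul_right_cancel₀ (hnz 2 (by norm_num)) ?_)
    have e1 := hfe' 2
    rw [sub_self] at e1
    have e2 := hfe' 0
    rw [sub_zero] at e2
    rw [mul_assoc, ← e2, ← e1, one_mul]
  exact ⟨absNorm 𝔣, W, f, Λ, hD, hsupp, hWsq, hnorm, hval, hΛ, hmain, hnz, hfe'⟩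

end FA.FermatTwist

end
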