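import Fermat.Agent.FermatTwist.Factor
import Fermat.Agent.FermatHasseWeilQ.Main

/-!
# The L-function of a twisted Fermat curve over `ℚ`

The factors of the twists of `J_{1,b}`, `b ≤ l - 2`, grouped by the rational prime below; the primes
dividing `l a b c` give finitely many further Euler factors.
-/

set_option autoImplicit false
set_option linter.unusedSectionVars false
set_option linter.style.haveILetI false

noncomputable section

open NumberField IsDedekindDomain Ideal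
open FA.PowerReciprocity FA.IwasawaStructure FA.GaussValuation FA.FermatHW
open scoped Classical ComplexConjugate

namespace FA.FermatTwist

universe u w

variable {K : Type u} [Field K] [NumberField K] {l : ℕ} [hl : Fact l.Prime]
  [IsCyclotomicExtension {l} ℚ K]

theorem intCast_mem_iff {p : ℕ} (hp : p.Prime) {v : HeightOneSpectrum (𝓞 K)}
    (hpv : (p : 𝓞 K) ∈ v.asIdeal) (z : ℤ) : (z : 𝓞 K) ∈ v.asIdeal ↔ (p : ℤ) ∣ z := by
  haveI := v.isMaximal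
  let := Ideal.Quotient.field v.asIdeal
  haveI : CharP (𝓞 K ⧸ v.asIdeal) p := (CharP.charP_iff_prime_eq_zero hp).mpr (by
    rw [← map_natCast (Ideal.Quotient.mk v.asIdeal)]
    exact Ideal.Quotient.eq_zero_iff_mem.mpr hpv)
  rw [← Ideal.Quotient.eq_zero_iff_mem, map_intCast, CharP.intCast_eq_zero_iff (𝓞 K ⧸ v.asIdeal) p]

/-- The bad integer `l a b c`. -/
theorem isBad_twist (l : ℕ) [hl : Fact l.Prime] {a b c : ℤ} (ha : a ≠ 0) (hb : b ≠ 0) (hc : c ≠ 0) :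
    IsBad l ((l * a * b * c : ℤ) : 𝓞 K) ((c * a ^ (l - 1) : ℤ) : 𝓞 K)
      ((c * b ^ (l - 1) : ℤ) : 𝓞 K) := by
  have hl1 : l - 1 ≠ 0 := Nat.sub_ne_zero_of_lt hl.out.one_lt
  have hdvd : ∀ x : ℤ, x ∣ (l * a * b * c : ℤ) ^ (l - 1) →
      (x : 𝓞 K) ∣ ((l * a * b * c : ℤ) : 𝓞 K) ^ (l - 1) := fun x hx => by
    simpa using map_dvd (Int.castRingHom (𝓞 K)) hx
  constructor
  · exact Int.cast_ne_zero.2
      (mul_ne_zero (mul_ne_zero (mul_ne_zero (Int.natCast_ne_zero.2 hl.out.ne_zero) ha) hb) hc)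
  · exact ⟨((a * b * c : ℤ) : 𝓞 K), by push_cast; ring⟩
  · refine hdvd _ ?_
    rw [mul_pow, mul_pow, mul_pow]
    exact (mul_dvd_mul (dvd_pow_self c hl1) (dvd_refl (a ^ (l - 1)))).trans
      ⟨(l : ℤ) ^ (l - 1) * b ^ (l - 1), by ring⟩
  · refine hdvd _ ?_
    rw [mul_pow, mul_pow, mul_pow]
    exact (mul_dvd_mul (dvd_pow_self c hl1) (dvd_refl (b ^ (l - 1)))).trans
      ⟨(l : ℤ) ^ (l - 1) * a ^ (l - 1), by ring⟩
  · intro P hP h
    push_cast at h ⊢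
    rcases hP.mem_or_mem h with h | h
    · rcases hP.mem_or_mem h with h | h
      · rcases hP.mem_or_mem h with h | h
        · exact Or.inl h
        · exact Or.inr (Or.inl (P.mul_mem_left _ (P.pow_mem_of_mem h _ (Nat.pos_of_ne_zero hl1))))
      · exact Or.inr (Or.inr (P.mul_mem_left _ (P.pow_mem_of_mem h _ (Nat.pos_of_ne_zero hl1))))
    · exact Or.inr (Or.inl (P.mul_mem_right _ h))

/-- **The reciprocal roots of the twisted curve at `q ∤ l a b c`.** -/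
theorem exists_twistRoots (hl2 : l ≠ 2) (φ : K →+* ℂ) (a b c : ℤ) (q : ℕ) [hq : Fact q.Prime]
    (hgood : ¬ (q : ℤ) ∣ (l * a * b * c : ℤ)) :
    ∃ α : Fin ((l - 1) * (l - 2)) → ℂ,
      (∀ i, ‖α i‖ ^ 2 = (q : ℝ)) ∧
      (∀ (E : Type w) [Field E] [Finite E] (d : ℕ), Nat.card E = q ^ d →
        (Nat.card (TwistPoint (a : E) b c l) : ℂ) = (q : ℂ) ^ d + 1 - ∑ i, α i ^ d) ∧
      ∀ T : Finset (HeightOneSpectrum (𝓞 K)), (∀ v, v ∈ T ↔ (q : 𝓞 K) ∈ v.asIdeal) → ∀ s : ℂ,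
        ∏ i, (1 - α i * (q : ℂ) ^ (-s)) = ∏ v ∈ T, ∏ j ∈ Finset.Icc 1 (l - 2),
          (1 - φ (twistValue l ((c * a ^ (l - 1) : ℤ) : 𝓞 K) ((c * b ^ (l - 1) : ℤ) : 𝓞 K) 1 j
            v.asIdeal : K) * ((absNorm v.asIdeal : ℕ) : ℂ) ^ (-s)) := by
  haveI : NeZero l := ⟨hl.out.ne_zero⟩
  have hnd : ¬ (q : ℤ) ∣ (l : ℤ) ∧ ¬ (q : ℤ) ∣ a ∧ ¬ (q : ℤ) ∣ b ∧ ¬ (q : ℤ) ∣ c :=
    ⟨fun h => hgood (((h.mul_right a).mul_right b).mul_right c),
      fun h => hgood (((h.mul_left (l : ℤ)).mul_right b).mul_right c),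
      fun h => hgood ((h.mul_left ((l : ℤ) * a)).mul_right c),
      fun h => hgood (h.mul_left ((l : ℤ) * a * b))⟩
  have hql : q ≠ l := fun e => hnd.1 (e ▸ dvd_refl _)
  obtain ⟨v, hqv⟩ := exists_prime_over (K := K) q
  have hzero : a ≠ 0 ∧ b ≠ 0 ∧ c ≠ 0 :=
    ⟨fun e => hnd.2.1 (e ▸ dvd_zero _), fun e => hnd.2.2.1 (e ▸ dvd_zero _),
      fun e => hnd.2.2.2 (e ▸ dvd_zero _)⟩
  have hbad := isBad_twist (K := K) l hzero.1 hzero.2.1 hzero.2.2
  obtain ⟨α, h1, h2, h3, h4⟩ := exists_inducedRoots v q hqv hql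
    (fun j w => φ (twistValue l ((c * a ^ (l - 1) : ℤ) : 𝓞 K) ((c * b ^ (l - 1) : ℤ) : 𝓞 K) 1 j
      w.asIdeal : K)) fun j hj w hw => by
      obtain ⟨i1, i2, i3⟩ := not_dvd_of_Icc hj
      obtain ⟨k1, k2, k3⟩ := hbad.notMem w.isPrime (P := w.asIdeal)
        fun e => hgood ((intCast_mem_iff hq.out hw _).1 e)
      exact norm_sq_twistValue hl2 i1 i2 i3 k1 k2 k3
  refine ⟨α, h1, fun E _ _ d hE => ?_, h4⟩
  let := Fintype.ofFinite E
  haveI : CharP E q := charP_of_card_eq_prime_pow (by rw [← Nat.card_eq_fintype_card]; exact hE)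
  have hcast : ∀ {z : ℤ}, ¬ (q : ℤ) ∣ z → (z : E) ≠ 0 := fun hz e =>
    hz ((CharP.intCast_eq_zero_iff E q _).1 e)
  by_cases hd : orderOf (q : ZMod l) ∣ d
  · obtain ⟨k, rfl⟩ := hd
    have hqm : ¬ q ∣ l := fun e => hql ((Nat.prime_dvd_prime_iff_eq hq.out hl.out).mp e)
    have hlv := natCast_notMem hqv hql
    haveI := v.isMaximal
    obtain ⟨_, hk⟩ := exists_residueAlgebra hqv hql E hE
    have h5 := twistPoints_residue hl2 φ hlv (fun e => hnd.2.1 ((intCast_mem_iff hq.out hqv a).1 e))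
      (fun e => hnd.2.2.1 ((intCast_mem_iff hq.out hqv b).1 e))
      (fun e => hnd.2.2.2 ((intCast_mem_iff hq.out hqv c).1 e)) E
    rw [hk, absNorm_eq hqv hqm, Nat.cast_pow, ← pow_mul] at h5
    rw [h5, h3, sum_pairs_conj (v := v) (fun i j w => φ (twistValue l ((c * a ^ (l - 1) : ℤ) : 𝓞 K)
      ((c * b ^ (l - 1) : ℤ) : 𝓞 K) i j w.asIdeal : K) ^ k) fun j hj σ => by
        rw [twistValue_conjAt _ _ hlv hj σ]]
  · rw [h2 d hd, sub_zero, card_twist_of_gcd hl.out.pos ?_ (hcast hnd.2.1) (hcast hnd.2.2.1)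
      (hcast hnd.2.2.2), hE, Nat.cast_pow]
    refine hl.out.coprime_iff_not_dvd.mpr fun e => hd (orderOf_dvd_of_pow_eq_one ?_)
    rw [hE, ← (Nat.modEq_iff_dvd' (Nat.one_le_pow _ _ hq.out.pos))] at e
    have := (ZMod.natCast_eq_natCast_iff _ _ _).mpr e
    rw [Nat.cast_one, Nat.cast_pow] at this
    exact this.symm

/-- **The L-function of `a x ^ l + b y ^ l = c z ^ l` and its functional equation.** -/
theorem exists_hasseWeilTwist (hl2 : l ≠ 2) (φ : K →+* ℂ) {a b c : ℤ} (ha : a ≠ 0) (hb : b ≠ 0)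
    (hc : c ≠ 0) :
    ∃ (α : Nat.Primes → Fin ((l - 1) * (l - 2)) → ℂ) (r : ℕ) (e : Fin r → ℂ) (n : Fin r → ℕ)
      (A : ℕ) (W : ℂ) (Λ : ℂ → ℂ),
      (∀ p : Nat.Primes, ¬ ((p : ℕ) : ℤ) ∣ l * a * b * c → (∀ i, ‖α p i‖ ^ 2 = (p : ℝ)) ∧
        ∀ (E : Type w) [Field E] [Finite E] (d : ℕ), Nat.card E = (p : ℕ) ^ d →
          (Nat.card (TwistPoint (a : E) b c l) : ℂ) = (p : ℂ) ^ d + 1 - ∑ i, α p i ^ d) ∧
      (∀ i, 1 < n i ∧ (∀ q : ℕ, q.Prime → q ∣ n i → (q : ℤ) ∣ l * a * b * c) ∧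
        (e i = 0 ∨ ‖e i‖ ^ 2 = (n i : ℝ))) ∧
      0 < A ∧ (∀ q : ℕ, q.Prime → q ∣ A → (q : ℤ) ∣ l * a * b * c) ∧ (W = 1 ∨ W = -1) ∧
      Differentiable ℂ Λ ∧
      (∀ s : ℂ, 3 / 2 < s.re → ∃ L : ℂ, L ≠ 0 ∧
        HasProd (fun p : {p : Nat.Primes // ¬ ((p : ℕ) : ℤ) ∣ l * a * b * c} =>
          (∏ i, (1 - α p.1 i * (p.1 : ℂ) ^ (-s)))⁻¹) L ∧
        Λ s = ((A : ℝ) : ℂ) ^ (s / 2) * Complex.Gammaℂ s ^ ((l - 1) * (l - 2) / 2) *
          ((∏ i, (1 - e i * (n i : ℂ) ^ (-s)))⁻¹ * L)) ∧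
      (∀ s : ℂ, 3 / 2 ≤ s.re → Λ s ≠ 0) ∧ ∀ s : ℂ, Λ s = W * Λ (2 - s) := by
  haveI : NeZero l := ⟨hl.out.ne_zero⟩
  set N : ℤ := l * a * b * c with hN
  have hbad := isBad_twist (K := K) l ha hb hc
  rw [← hN] at hbad
  have hN0 : (N : 𝓞 K) ≠ 0 := hbad.ne_zero
  have hU0 : c * a ^ (l - 1) ≠ 0 := mul_ne_zero hc (pow_ne_zero _ ha)
  have hV0 : c * b ^ (l - 1) ≠ 0 := mul_ne_zero hc (pow_ne_zero _ hb)
  -- the local roots
  have hex : ∀ p : Nat.Primes, ∃ α : Fin ((l - 1) * (l - 2)) → ℂ, ¬ ((p : ℕ) : ℤ) ∣ N →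
      (∀ i, ‖α i‖ ^ 2 = ((p : ℕ) : ℝ)) ∧
      (∀ (E : Type w) [Field E] [Finite E] (d : ℕ), Nat.card E = (p : ℕ) ^ d →
        (Nat.card (TwistPoint (a : E) b c l) : ℂ) = ((p : ℕ) : ℂ) ^ d + 1 - ∑ i, α i ^ d) ∧
      ∀ T : Finset (HeightOneSpectrum (𝓞 K)), (∀ v, v ∈ T ↔ ((p : ℕ) : 𝓞 K) ∈ v.asIdeal) →
        ∀ s : ℂ, ∏ i, (1 - α i * ((p : ℕ) : ℂ) ^ (-s)) = ∏ v ∈ T, ∏ j ∈ Finset.Icc 1 (l - 2),
          (1 - φ (twistValue l ((c * a ^ (l - 1) : ℤ) : 𝓞 K) ((c * b ^ (l - 1) : ℤ) : 𝓞 K) 1 j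
            v.asIdeal : K) * ((absNorm v.asIdeal : ℕ) : ℂ) ^ (-s)) := fun p => by
    by_cases hp : ((p : ℕ) : ℤ) ∣ N
    · exact ⟨0, fun h => absurd hp h⟩
    · haveI : Fact (p : ℕ).Prime := ⟨p.2⟩
      obtain ⟨α, h⟩ := exists_twistRoots.{u, w} hl2 φ a b c (p : ℕ) hp
      exact ⟨α, fun _ => h⟩
  choose α hα using hex
  -- the factors
  have hbs : ∀ j : Finset.Icc 1 (l - 2), _ := fun j => exists_twistData φ hl2 hbad hU0 hV0 j.2
  choose D W f Λ hD hDN hW hf hval hΛ hL hnz hfe using hbs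
  have hcard : Fintype.card (Finset.Icc 1 (l - 2)) = l - 2 := by
    rw [Fintype.card_coe, Nat.card_Icc, Nat.add_sub_cancel]
  -- the primes over the bad ones
  have hSfin : {v : HeightOneSpectrum (𝓞 K) | (N : 𝓞 K) ∈ v.asIdeal}.Finite :=
    (Ideal.finite_factors (I := Ideal.span {(N : 𝓞 K)}) (by
      rwa [ne_eq, Ideal.zero_eq_bot, Ideal.span_singleton_eq_bot])).subset
      fun v hv => Ideal.dvd_span_singleton.2 hv
  set S := hSfin.toFinset
  set I := (Finset.univ : Finset (Finset.Icc 1 (l - 2))) ×ˢ S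
  obtain ⟨eI⟩ : Nonempty (Fin I.card ≃ I) := ⟨I.equivFin.symm⟩
  refine ⟨α, I.card, fun i => f (eI i).1.1 (eI i).1.2.asIdeal, fun i => absNorm (eI i).1.2.asIdeal,
    ∏ j, l ^ (l - 2) * D j, ∏ j, W j, fun s => ∏ j, Λ j s,
    fun p hp => ⟨(hα p hp).1, (hα p hp).2.1⟩, fun i => ⟨FA.HilbertN.one_lt_absNorm _, fun q hq hqd => ?_, hf _ _⟩,
    Finset.prod_pos fun j _ => mul_pos (pow_pos hl.out.pos _) (hD j), fun q hq hqA => ?_,
    Finset.prod_induction W (fun z => z = 1 ∨ z = -1) ?_ (Or.inl rfl) fun j _ => hW j,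
    Differentiable.fun_finsetProd fun j _ => hΛ j, fun s hs => ?_,
    fun s hs => Finset.prod_ne_zero_iff.2 fun j _ => hnz j s hs, fun s => ?_⟩
  · have hv : (N : 𝓞 K) ∈ (eI i).1.2.asIdeal :=
      hSfin.mem_toFinset.1 (Finset.mem_product.1 (eI i).2).2
    have hd := hqd.trans (map_dvd absNorm (Ideal.dvd_span_singleton.2 hv))
    rw [absNorm_span_singleton, show (N : 𝓞 K) = algebraMap ℤ (𝓞 K) N by simp,
      Algebra.norm_algebraMap, Int.natAbs_pow] at hd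
    exact Int.natCast_dvd.2 (hq.dvd_of_dvd_pow hd)
  · obtain ⟨j, -, hj⟩ := (Prime.dvd_finsetProd_iff (Nat.prime_iff.1 hq) _).1 hqA
    rcases hq.dvd_mul.1 hj with h | h
    · rw [(Nat.prime_dvd_prime_iff_eq hq hl.out).1 (hq.dvd_of_dvd_pow h), hN, mul_assoc, mul_assoc]
      exact dvd_mul_right _ _
    · exact hDN j q hq h
  · rintro x y (rfl | rfl) (rfl | rfl) <;> simp
  · choose L hL0 hLp hLne hLe using fun j => hL j s hs
    set F : HeightOneSpectrum (𝓞 K) → ℂ := fun v =>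
      ∏ j, (1 - f j v.asIdeal * ((absNorm v.asIdeal : ℕ) : ℂ) ^ (-s))⁻¹ with hF
    have hF0 : ∀ v, F v ≠ 0 := fun v =>
      Finset.prod_ne_zero_iff.2 fun j _ => inv_ne_zero (hLne j v)
    have hB : ∏ i, (1 - f (eI i).1.1 (eI i).1.2.asIdeal *
        ((absNorm (eI i).1.2.asIdeal : ℕ) : ℂ) ^ (-s)) = (∏ v ∈ S, F v)⁻¹ := by
      rw [eI.prod_comp (fun x : I => 1 - f x.1.1 x.1.2.asIdeal *
          ((absNorm x.1.2.asIdeal : ℕ) : ℂ) ^ (-s)),
        Finset.prod_coe_sort I fun x => 1 - f x.1 x.2.asIdeal *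
          ((absNorm x.2.asIdeal : ℕ) : ℂ) ^ (-s), Finset.prod_product, Finset.prod_comm,
        ← Finset.prod_inv_distrib]
      exact Finset.prod_congr rfl fun v _ => by
        simp only [hF, Finset.prod_inv_distrib, inv_inv]
    refine ⟨(∏ v ∈ S, F v)⁻¹ * ∏ j, L j, mul_ne_zero (inv_ne_zero
      (Finset.prod_ne_zero_iff.2 fun v _ => hF0 v))
      (Finset.prod_ne_zero_iff.2 fun j _ => hL0 j), ?_, ?_⟩
    · have hall : HasProd F (∏ j, L j) := hasProd_prod (s := Finset.univ) fun j _ => hLp j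
      have hS : HasProd (fun v => if v ∈ S then (F v)⁻¹ else 1) (∏ v ∈ S, F v)⁻¹ := by
        rw [← Finset.prod_inv_distrib,
          ← Finset.prod_congr rfl fun v (hv : v ∈ S) => if_pos (α := ℂ) (t := (F v)⁻¹) (e := 1) hv]
        exact hasProd_prod_of_ne_finset_one fun v hv => if_neg hv
      have h5 : Function.mulSupport (fun v => (if v ∈ S then (F v)⁻¹ else 1) * F v) ⊆
          {v : HeightOneSpectrum (𝓞 K) | (N : 𝓞 K) ∉ v.asIdeal} := fun v hv hmem => hv (by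
        beta_reduce
        rw [if_pos (hSfin.mem_toFinset.2 hmem), inv_mul_cancel₀ (hF0 v)])
      have hgood := (hasProd_subtype_iff_of_mulSupport_subset h5).2 (hS.mul hall)
      choose π hπ hπu using fun v : HeightOneSpectrum (𝓞 K) => existsUnique_prime_mem (K := K) v
      let ρ : {v : HeightOneSpectrum (𝓞 K) // (N : 𝓞 K) ∉ v.asIdeal} →
          {p : Nat.Primes // ¬ ((p : ℕ) : ℤ) ∣ N} := fun v => ⟨π v.1, fun h => v.2
            ((intCast_mem_iff (π v.1).2 (hπ v.1) N).2 h)⟩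
      refine HasProd.sigma ((Equiv.sigmaFiberEquiv ρ).hasProd_iff.2 hgood) fun p => ?_
      haveI : Fact (p.1 : ℕ).Prime := ⟨p.1.2⟩
      obtain ⟨v₁, hv₁⟩ := exists_prime_over (K := K) (p.1 : ℕ)
      have hmem : ∀ x : {v // ρ v = p}, ((p.1 : ℕ) : 𝓞 K) ∈ x.1.1.asIdeal := fun x => by
        have h := hπ x.1.1
        beta_reduce at h
        rwa [show π x.1.1 = p.1 from congrArg Subtype.val x.2] at h
      haveI : Finite {v // ρ v = p} := Finite.of_injective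
        (fun x => (⟨x.1.1, (mem_conjugates_iff l hv₁).2 (hmem x)⟩ : conjugates v₁))
        fun x y h => Subtype.ext (Subtype.ext (congrArg Subtype.val h :))
      let := Fintype.ofFinite {v // ρ v = p}
      let T : Finset (HeightOneSpectrum (𝓞 K)) :=
        Finset.univ.map ⟨fun x : {v // ρ v = p} => x.1.1, fun x y h => Subtype.ext (Subtype.ext h)⟩
      have hT : ∀ v, v ∈ T ↔ ((p.1 : ℕ) : 𝓞 K) ∈ v.asIdeal := fun v => by
        simp only [T, Finset.mem_map, Finset.mem_univ, true_and]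
        exact ⟨fun ⟨x, hx⟩ => hx ▸ hmem x, fun h =>
          ⟨⟨⟨v, fun e => p.2 ((intCast_mem_iff p.1.2 h N).1 e)⟩,
            Subtype.ext (hπu v p.1 h).symm⟩, rfl⟩⟩
      convert hasProd_fintype _ using 1
      rw [(hα p.1 p.2).2.2 T hT s, Finset.prod_map, ← Finset.prod_inv_distrib]
      refine Finset.prod_congr rfl fun x _ => ?_
      show _ = (if x.1.1 ∈ S then (F x.1.1)⁻¹ else 1) * F x.1.1
      rw [if_neg fun hv => x.1.2 (hSfin.mem_toFinset.1 hv), one_mul, hF, ← Finset.prod_inv_distrib,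
        ← Finset.prod_coe_sort]
      exact Finset.prod_congr rfl fun j _ => by rw [hval j _ x.1.2]; rfl
    · rw [hB, inv_inv, mul_inv_cancel_left₀ (Finset.prod_ne_zero_iff.2 fun v _ => hF0 v)]
      simp only [hLe, Finset.prod_mul_distrib, Finset.prod_const, Finset.card_univ, hcard, ← pow_mul]
      refine congrArg (· * ∏ j, L j) (congrArg₂ (· * ·) ?_ ?_)
      · rw [prod_cpow_ofReal _ fun j => by positivity, Finset.prod_mul_distrib, Finset.prod_const,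
          Finset.card_univ, hcard, Nat.cast_mul, Nat.cast_prod, Nat.cast_pow,
          IsCyclotomicExtension.Rat.discr_prime l K, Int.cast_mul, Int.cast_pow, Int.cast_pow,
          Int.cast_neg, Int.cast_one, Int.cast_natCast, abs_mul, abs_pow, abs_neg, abs_one, one_pow,
          one_mul, abs_pow, Nat.abs_cast, ← pow_mul]
      · obtain ⟨k, hk⟩ := hl.out.odd_of_ne_two hl2
        rw [hk, show 2 * k + 1 - 1 = 2 * k by omega, Nat.mul_div_cancel_left k two_pos,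
          mul_assoc 2 k, Nat.mul_div_cancel_left _ two_pos]
  · rw [← Finset.prod_mul_distrib]
    exact Finset.prod_congr rfl fun j _ => hfe j s

end FA.FermatTwist

end
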