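import Fermat.Agent.HilbertN.Primary
import Fermat.Agent.PowerReciprocity.Symbol

/-!
# The power residue characters of `ℚ(ζ_l)`

For a fixed `m` the symbol `I ↦ (m / I)` is trivial at the principal ideals of the elements
congruent to `1` modulo `m` and a fixed power of `l`.
-/

set_option autoImplicit false
set_option linter.unusedSectionVars false
set_option linter.style.haveILetI false

noncomputable section

open NumberField IsDedekindDomain UniqueFactorizationMonoid
open FA.PowerReciprocity FA.HilbertN FA.ArtinRec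
open scoped Classical

namespace FA.FermatTwist

universe u

variable {K : Type u} [Field K] [NumberField K] {l : ℕ} [hl : Fact l.Prime]
  [IsCyclotomicExtension {l} ℚ K]

theorem hasEnoughRoots : HasEnoughRootsOfUnity K l where
  prim := ⟨_, IsCyclotomicExtension.zeta_spec l ℚ K⟩
  cyc := haveI : NeZero l := ⟨hl.out.ne_zero⟩; rootsOfUnity.isCyclic K l

section

variable [NeZero l] [HasEnoughRootsOfUnity K l]

variable (K l) in
/-- A root of unity as an algebraic integer, multiplicatively. -/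
def rootHom : rootsOfUnity l K →* 𝓞 K where
  toFun := rootInt l
  map_one' := rootInt_one l
  map_mul' := rootInt_mul l

/-- The two symbols at a prime. -/
theorem symbolPrime_eq_rootInt {v : HeightOneSpectrum (𝓞 K)} (hv : (l : 𝓞 K) ∉ v.asIdeal)
    {x : 𝓞 K} (hx : x ∉ v.asIdeal) :
    symbolPrime l v.asIdeal x = rootInt l (residueSymbol l v x) := by
  haveI := v.isMaximal
  refine symbolPrime_eq hv (rootInt_pow_eq_one l _) ?_
  rw [← map_pow]
  exact (Ideal.Quotient.eq.2 (residueSymbol_spec l hv hx)).symm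

/-- The product of the residue symbols over the primes of an ideal. -/
def residueIdeal (l : ℕ) [NeZero l] [HasEnoughRootsOfUnity K l] (x : 𝓞 K) (I : Ideal (𝓞 K)) :
    rootsOfUnity l K :=
  ∏ᶠ v : HeightOneSpectrum (𝓞 K),
    if (l : 𝓞 K) ∈ v.asIdeal then 1 else residueSymbol l v x ^ ordI v I

theorem residueIdeal_support (x : 𝓞 K) {I : Ideal (𝓞 K)} (hI : I ≠ ⊥) :
    (Function.mulSupport fun v : HeightOneSpectrum (𝓞 K) =>
      if (l : 𝓞 K) ∈ v.asIdeal then 1 else residueSymbol l v x ^ ordI v I).Finite :=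
  (finite_ordI_ne_zero hI).subset fun v hv h => hv (by simp [h])

theorem residueIdeal_mul (x : 𝓞 K) {I J : Ideal (𝓞 K)} (hI : I ≠ ⊥) (hJ : J ≠ ⊥) :
    residueIdeal l x (I * J) = residueIdeal l x I * residueIdeal l x J := by
  rw [residueIdeal, residueIdeal, residueIdeal,
    ← finprod_mul_distrib (residueIdeal_support x hI) (residueIdeal_support x hJ)]
  refine finprod_congr fun v => ?_
  split_ifs
  · rw [one_mul]
  · rw [ordI_mul v hI hJ, pow_add]

theorem residueIdeal_prime (x : 𝓞 K) {v : HeightOneSpectrum (𝓞 K)}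
    (hv : (l : 𝓞 K) ∉ v.asIdeal) : residueIdeal l x v.asIdeal = residueSymbol l v x := by
  rw [residueIdeal, finprod_eq_single _ v fun w hw => by
    rw [ordI_prime, if_neg hw, pow_zero, ite_self], if_neg hv, ordI_prime, if_pos rfl, pow_one]

theorem residueProd_span (x : 𝓞 K) {r : 𝓞 K} (hr : r ≠ 0) :
    residueProd l x (intU r hr) = residueIdeal l x (Ideal.span {r}) :=
  finprod_congr fun v => by rw [ord_intU_eq_ordI, zpow_natCast]

/-- The two symbols of an ideal. -/
theorem symbol_eq_residueIdeal {I : Ideal (𝓞 K)} (hI : I ≠ ⊥) (hcop : l.Coprime (Ideal.absNorm I))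
    {x : 𝓞 K} (hx : PrimeTo I x) : symbol l I x = rootHom K l (residueIdeal l x I) := by
  induction I using induction_on_prime with
  | h₁ => exact absurd rfl hI
  | h₂ J hJ =>
    rw [Ideal.isUnit_iff.1 hJ, symbol_top, residueIdeal, finprod_eq_one_of_forall_eq_one fun v => by
      rw [ordI_top, pow_zero, ite_self], map_one]
  | h₃ J P hJ hP ih =>
    have hJ' : J ≠ ⊥ := hJ
    let v : HeightOneSpectrum (𝓞 K) := ⟨P, Ideal.isPrime_of_prime hP, hP.ne_zero⟩
    have hv : (l : 𝓞 K) ∉ v.asIdeal := FA.PowerReciprocity.natCast_notMem v.isPrime.ne_top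
      (coprime_of_dvd (dvd_mul_right P J) hcop)
    have hmem : P ∈ normalizedFactors (P * J) := by
      rw [normalizedFactors_mul hP.ne_zero hJ, normalizedFactors_irreducible hP.irreducible,
        normalize_eq]
      exact Multiset.mem_add.2 (Or.inl (Multiset.mem_singleton_self P))
    have hxJ : PrimeTo J x := fun Q hQ => hx Q (by
      rw [normalizedFactors_mul hP.ne_zero hJ]
      exact Multiset.mem_add.2 (Or.inr hQ))
    rw [symbol_mul_left hP.ne_zero hJ, residueIdeal_mul x hP.ne_zero hJ', map_mul,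
      ih hJ' (coprime_of_dvd (dvd_mul_left J P) hcop) hxJ, symbol_prime hP,
      show P = v.asIdeal from rfl, residueIdeal_prime x hv, symbolPrime_eq_rootInt hv (hx P hmem)]
    rfl

theorem residueSymbol_eq_one {v : HeightOneSpectrum (𝓞 K)} (hv : (l : 𝓞 K) ∉ v.asIdeal) {x : 𝓞 K}
    (hx : x - 1 ∈ v.asIdeal) : residueSymbol l v x = 1 := by
  have h1 : (1 : 𝓞 K) ∉ v.asIdeal := fun h => v.isPrime.ne_top ((Ideal.eq_top_iff_one _).2 h)
  have hx' : x ∉ v.asIdeal := fun h => h1 (by simpa using v.asIdeal.sub_mem h hx)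
  rw [residueSymbol_congr l hv hx' hx]
  exact residueSymbol_eq l hv h1 (by rw [one_pow, rootInt_one, sub_self]; exact v.asIdeal.zero_mem)

end

/-- **The conductor of a power residue character**: `(m / x) = 1` if `x` is `1` modulo `m` and a
fixed power of `l`. -/
theorem exists_symbol_level (hl2 : l ≠ 2) :
    ∃ k : ℕ, ∀ m x : 𝓞 K, m ≠ 0 → x ≠ 0 → x - 1 ∈ Ideal.span {(l : 𝓞 K)} ^ k →
      x - 1 ∈ Ideal.span {m} → symbol l (Ideal.span {x}) m = 1 := by
  haveI : NeZero l := ⟨hl.out.ne_zero⟩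
  haveI := hasEnoughRoots (K := K) (l := l)
  have hl3 : 2 < l := lt_of_le_of_ne hl.out.two_le (Ne.symm hl2)
  obtain ⟨k, hk⟩ := exists_primary_reciprocity (K := K) l hl3
  refine ⟨k + 1, fun m x hm hx hxl hxm => ?_⟩
  have hone : ∀ v : HeightOneSpectrum (𝓞 K), x - 1 ∈ v.asIdeal → x ∉ v.asIdeal := fun v h h' =>
    v.isPrime.ne_top ((Ideal.eq_top_iff_one _).2 (by simpa using v.asIdeal.sub_mem h' h))
  have hxspan : ∀ P ∈ normalizedFactors (Ideal.span {x}), ∃ v : HeightOneSpectrum (𝓞 K),
      v.asIdeal = P ∧ x ∈ v.asIdeal := fun P hP => by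
    have hp := prime_of_normalized_factor P hP
    exact ⟨⟨P, Ideal.isPrime_of_prime hp, hp.ne_zero⟩, rfl,
      Ideal.le_of_dvd (dvd_of_mem_normalizedFactors hP) (Ideal.mem_span_singleton_self x)⟩
  have hxm' : PrimeTo (Ideal.span {x}) m := fun P hP hmP => by
    obtain ⟨v, rfl, hxv⟩ := hxspan P hP
    exact hone v ((Ideal.span_singleton_le_iff_mem _).2 hmP hxm) hxv
  have hcop : l.Coprime (Ideal.absNorm (Ideal.span {x})) := by
    refine hl.out.coprime_iff_not_dvd.2 fun hd => ?_
    haveI : Finite (𝓞 K ⧸ Ideal.span {x}) :=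
      Ideal.finiteQuotientOfFreeOfNeBot _ (by rwa [ne_eq, Ideal.span_singleton_eq_bot])
    obtain ⟨z, hz⟩ := exists_prime_addOrderOf_dvd_card' (G := 𝓞 K ⧸ Ideal.span {x}) l (by
      rwa [Ideal.absNorm_apply, Submodule.cardQuot_apply] at hd)
    obtain ⟨r, hr⟩ : (l : 𝓞 K) ∣ x - 1 := Ideal.mem_span_singleton.1
      (Ideal.pow_le_self (Nat.succ_ne_zero k) hxl)
    have h2 : (l : 𝓞 K ⧸ Ideal.span {x}) * z = 0 := by
      rw [← nsmul_eq_mul, ← hz]
      exact addOrderOf_nsmul_eq_zero z
    have h3 := congrArg (Ideal.Quotient.mk (Ideal.span {x})) hr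
    rw [map_sub, Ideal.Quotient.eq_zero_iff_mem.2 (Ideal.mem_span_singleton_self x), map_one,
      map_mul, map_natCast, zero_sub] at h3
    have hz0 : z = 0 := by
      rw [← one_mul z, ← neg_neg (1 : 𝓞 K ⧸ Ideal.span {x}), h3, neg_mul, mul_right_comm, h2,
        zero_mul, neg_zero]
    rw [hz0, addOrderOf_zero] at hz
    exact hl.out.ne_one hz.symm
  rw [symbol_eq_residueIdeal (by rwa [ne_eq, Ideal.span_singleton_eq_bot]) hcop hxm',
    ← residueProd_span m hx, ← hk x m hx hm (Ideal.pow_le_pow_right (Nat.le_succ k) hxl)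
      (fun v _ => or_iff_not_imp_right.2 fun hm' => hone v
        ((Ideal.span_singleton_le_iff_mem _).2 (not_not.1 hm') hxm)),
    residueProd, finprod_eq_one_of_forall_eq_one fun v => ?_, map_one]
  split_ifs with hv
  · rfl
  · by_cases hmv : m ∈ v.asIdeal
    · rw [residueSymbol_eq_one hv ((Ideal.span_singleton_le_iff_mem _).2 hmv hxm), one_zpow]
    · rw [(ord_intU_eq_zero_iff v hm).2 hmv, zpow_zero]

end FA.FermatTwist

end
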